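import Fermat.Agent.ClassField.GW.Coh
import Mathlib.GroupTheory.PGroup

/-!
# Additive invariants of finite `p`-torsion modules
-/

set_option autoImplicit false

noncomputable section

namespace Fermat.Agent.ClassField.GW

open Fermat.Agent.ClassField.S55

/-- a group with the trivial action of `G` -/
@[ext]
structure TrivMod (G A : Type*) where
  /-- the element -/
  val : A

namespace TrivMod

variable {G A : Type*} [AddCommGroup A]

/-- the underlying element -/
def equiv : TrivMod G A ≃ A := ⟨TrivMod.val, TrivMod.mk, fun _ => rfl, fun _ => rfl⟩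

instance : AddCommGroup (TrivMod G A) := equiv.addCommGroup

instance [Group G] : DistribMulAction G (TrivMod G A) where
  smul _ x := x
  one_smul _ := rfl
  mul_smul _ _ _ := rfl
  smul_zero _ := rfl
  smul_add _ _ _ := rfl

instance [Finite A] : Finite (TrivMod G A) := Finite.of_equiv A equiv.symm

instance [Subsingleton A] : Subsingleton (TrivMod G A) := equiv.subsingleton

@[simp] theorem smul_def [Group G] (g : G) (x : TrivMod G A) : g • x = x := rfl

/-- the underlying element, additively -/
def addEquiv : TrivMod G A ≃+ A := { equiv with map_add' := fun _ _ => rfl }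

end TrivMod

/-- an additive invariant of finite `p`-torsion modules -/
structure AddInv (p : ℕ) (G : Type) [Group G] where
  /-- the invariant -/
  val : ∀ (V : Type) [AddCommGroup V] [DistribMulAction G V], ℤ
  add : ∀ {V₁ V V₂ : Type} [AddCommGroup V₁] [DistribMulAction G V₁] [AddCommGroup V]
    [DistribMulAction G V] [AddCommGroup V₂] [DistribMulAction G V₂] [Finite V]
    (i : V₁ →+[G] V) (j : V →+[G] V₂), (∀ v : V, p • v = 0) → Function.Injective i →
    Function.Surjective j → (∀ v, j v = 0 ↔ ∃ w, i w = v) → val V = val V₁ + val V₂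

namespace AddInv

variable {p : ℕ} {G : Type} [Group G] (a : AddInv p G)

/-- an equivariant map to the zero module -/
def toPoint {V : Type} [AddCommGroup V] [DistribMulAction G V] :
    V →+[G] TrivMod G PUnit.{1} where
  toFun _ := 0
  map_smul' _ _ := rfl
  map_zero' := rfl
  map_add' _ _ := rfl

theorem val_point : a.val (TrivMod G PUnit.{1}) = 0 := by
  have h := a.add (toPoint (G := G) (V := TrivMod G PUnit.{1})) toPoint
    (fun v => Subsingleton.elim _ _) (fun x y _ => Subsingleton.elim _ _)
    (fun x => ⟨x, Subsingleton.elim _ _⟩)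
    (fun v => ⟨fun _ => ⟨v, Subsingleton.elim _ _⟩, fun _ => Subsingleton.elim _ _⟩)
  omega

variable {V W : Type} [AddCommGroup V] [DistribMulAction G V] [AddCommGroup W]
  [DistribMulAction G W]

theorem congr [Finite W] (e : V →+[G] W) (he : Function.Bijective e) (hW : ∀ w : W, p • w = 0) :
    a.val V = a.val W := by
  have h := a.add e toPoint hW he.1 (fun x => ⟨0, Subsingleton.elim _ _⟩)
    (fun v => ⟨fun _ => he.2 v, fun _ => Subsingleton.elim _ _⟩)
  rw [a.val_point] at h
  omega

theorem val_subsingleton [Subsingleton V] : a.val V = 0 := by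
  have : Finite (TrivMod G PUnit.{1}) := inferInstance
  rw [a.congr (W := TrivMod G PUnit.{1}) toPoint
    ⟨fun x y _ => Subsingleton.elim _ _, fun x => ⟨0, Subsingleton.elim _ _⟩⟩
    (fun w => Subsingleton.elim _ _), a.val_point]

/-- additivity along a surjection -/
theorem val_eq_ker_add [Finite V] (φ : V →+[G] W) (hφ : Function.Surjective φ)
    (hV : ∀ v : V, p • v = 0) : a.val V = a.val (kerOf φ) + a.val W :=
  a.add (kerIncl φ) φ hV Subtype.val_injective hφ fun v =>
    ⟨fun h => ⟨⟨v, h⟩, rfl⟩, by rintro ⟨w, rfl⟩; exact w.2⟩

/-- the invariant `Q ↦ a (Hom(Q, M))` -/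
def homInto (a : AddInv p G) [Fact p.Prime] (M : Type) [AddCommGroup M] [DistribMulAction G M]
    [Finite M] (hM : ∀ m : M, p • m = 0) : AddInv p G where
  val Q := a.val (CHom Q M)
  add {Q₁ Q Q₂} _ _ _ _ _ _ _ i j hQ hi hj hex := by
    have : Finite Q₁ := Finite.of_injective i hi
    have : Finite Q₂ := Finite.of_surjective j hj
    have fin : ∀ (T : Type) [AddCommGroup T] [Finite T], Finite (CHom T M) := fun T _ _ =>
      Finite.of_injective (fun f : CHom T M => (f : T → M)) fun f f' h => CHom.ext' (congrFun h)
    have := fin Q
    rw [add_comm]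
    refine a.add (CHom.pre j) (CHom.pre i) (fun f => CHom.ext' fun q => by
      rw [CHom.nsmul_apply, hM, CHom.zero_apply]) (fun f f' h => CHom.ext' fun q => ?_) ?_ fun f => ?_
    · obtain ⟨x, rfl⟩ := hj q
      exact congrArg (fun u : CHom Q M => u x) h
    · intro f
      let _ : Module (ZMod p) Q := AddCommGroup.zmodModule hQ
      obtain ⟨pr, hpr⟩ := exists_projection (p := p) (i : Q₁ →+ Q).range
      let e := AddMonoidHom.ofInjective (f := (i : Q₁ →+ Q)) hi
      refine ⟨⟨f.hom.comp (e.symm.toAddMonoidHom.comp pr)⟩, CHom.ext' fun q => ?_⟩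
      show f (e.symm (pr ((i : Q₁ →+ Q) q))) = f q
      rw [hpr _ ⟨q, rfl⟩]
      exact congrArg _ (e.symm_apply_apply q)
    · constructor
      · intro hf
        have hv : ∀ x y, j x = j y → f x = f y := fun x y h => by
          obtain ⟨w, hw⟩ := (hex (x - y)).1 (by rw [map_sub, h, sub_self])
          rw [← sub_eq_zero, ← map_sub, ← hw]
          exact congrArg (fun u : CHom Q₁ M => u w) hf
        refine ⟨⟨AddMonoidHom.mk' (fun q => f (Function.surjInv hj q)) fun q q' => ?_⟩,
          CHom.ext' fun x => hv _ _ (Function.surjInv_eq hj (j x))⟩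
        rw [← map_add]
        exact hv _ _ (by simp [map_add, Function.surjInv_eq hj])
      · rintro ⟨h, rfl⟩
        exact CHom.ext' fun w => by
          show h (j (i w)) = 0
          rw [(hex _).2 ⟨w, rfl⟩, map_zero]

end AddInv

variable {p : ℕ} [Fact p.Prime] {G : Type} [Group G] (a : AddInv p G)

/-- a finite module on which `G` acts through a `p`-group is made of trivial modules -/
theorem AddInv.val_of_fixed_ne_zero {P : Type*} [Group P] (hP : IsPGroup p P) (π : G →* P)
    {V : Type} [AddCommGroup V] [DistribMulAction G V] [Finite V] (hV : ∀ v : V, p • v = 0)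
    (hπ : ∀ g g', π g = π g' → ∀ v : V, g • v = g' • v) (hsurj : Function.Surjective π) :
    a.val V = dlog p V * a.val (TrivMod G (ZMod p)) := by
  induction hn : Nat.card V using Nat.strong_induction_on generalizing V with
  | _ n ih =>
    rcases subsingleton_or_nontrivial V with h | h
    · rw [a.val_subsingleton, dlog, Nat.card_of_subsingleton (0 : V)]
      simp
    let act : MulAction P V :=
      { smul := fun x v => Function.surjInv hsurj x • v
        one_smul := fun v =>
          (hπ _ 1 (by rw [Function.surjInv_eq hsurj, map_one]) v).trans (one_smul G v)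
        mul_smul := fun x y v => by
          refine (hπ _ (Function.surjInv hsurj x * Function.surjInv hsurj y) ?_ v).trans (mul_smul _ _ _)
          rw [map_mul, Function.surjInv_eq hsurj, Function.surjInv_eq hsurj,
            Function.surjInv_eq hsurj] }
    have hdvd : p ∣ Nat.card V := by
      obtain ⟨v, hv⟩ := exists_ne (0 : V)
      exact addOrderOf_eq_prime (hV v) hv ▸ addOrderOf_dvd_natCard v
    obtain ⟨v, hv, hv0⟩ := hP.exists_fixed_point_of_prime_dvd_card_of_fixed_point V hdvd
      (a := (0 : V)) fun x => smul_zero (Function.surjInv hsurj x)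
    have hfix : ∀ g : G, g • v = v := fun g =>
      (hπ g _ (Function.surjInv_eq hsurj (π g)).symm v).trans (hv (π g))
    let l : ZMod p →+ V := ZMod.lift p ⟨zmultiplesHom V v, by
      show (p : ℤ) • v = 0
      rw [natCast_zsmul]; exact hV v⟩
    have hl : ∀ z : ℤ, l (z : ZMod p) = z • v := fun z => ZMod.lift_coe p _ z
    let i : TrivMod G (ZMod p) →+[G] V :=
      { toFun := fun x => l x.val
        map_smul' := fun g x => by
          obtain ⟨z, hz⟩ := ZMod.intCast_surjective x.val
          show l x.val = g • l x.val
          rw [← hz, hl, smul_comm g z v, hfix g]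
        map_zero' := map_zero l
        map_add' := fun x y => map_add l _ _ }
    have hi : Function.Injective i := by
      refine (injective_iff_map_eq_zero i).2 fun x hx => ?_
      obtain ⟨z, hz⟩ := ZMod.intCast_surjective x.val
      change l x.val = 0 at hx
      rw [← hz, hl] at hx
      refine TrivMod.ext ?_
      show x.val = 0
      rw [← hz, ZMod.intCast_zmod_eq_zero_iff_dvd]
      have : addOrderOf v = p := addOrderOf_eq_prime (hV v) fun h0 => hv0 h0.symm
      rw [← this]
      exact addOrderOf_dvd_iff_zsmul_eq_zero.2 hx
    let S : AddSubgroup V := (i : TrivMod G (ZMod p) →+ V).range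
    let _ : DistribMulAction G (V ⧸ S) :=
      { smul := fun g => QuotientAddGroup.map S S (DistribSMul.toAddMonoidHom V g) (by
          rintro _ ⟨x, rfl⟩
          exact ⟨x, map_smul i g x⟩)
        one_smul := fun q => by
          induction q using QuotientAddGroup.induction_on with
          | H y => exact congrArg QuotientAddGroup.mk (one_smul G y)
        mul_smul := fun g h q => by
          induction q using QuotientAddGroup.induction_on with
          | H y => exact congrArg QuotientAddGroup.mk (mul_smul g h y)
        smul_zero := fun g => congrArg QuotientAddGroup.mk (smul_zero g)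
        smul_add := fun g q q' => map_add _ q q' }
    let j : V →+[G] V ⧸ S :=
      { toFun := fun x => QuotientAddGroup.mk x, map_smul' := fun g x => rfl, map_zero' := rfl,
        map_add' := fun x y => rfl }
    have h1 := a.add i j hV hi QuotientAddGroup.mk_surjective
      fun x => (QuotientAddGroup.eq_zero_iff x).trans Iff.rfl
    have hS : Nat.card S = p := by
      have hi' : Function.Injective (i : TrivMod G (ZMod p) →+ V) := hi
      rw [← Nat.card_congr (AddMonoidHom.ofInjective hi').toEquiv,
        Nat.card_congr TrivMod.equiv, Nat.card_zmod]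
    have hcard : Nat.card V = Nat.card (V ⧸ S) * p := by
      rw [S.card_eq_card_quotient_mul_card_addSubgroup, hS]
    have hlt : Nat.card (V ⧸ S) < n := by
      rw [← hn, hcard]
      exact lt_mul_of_one_lt_right Nat.card_pos (Fact.out : p.Prime).one_lt
    have h2 := ih _ hlt (V := V ⧸ S) (fun q => by
        induction q using QuotientAddGroup.induction_on with
        | H y => exact (congrArg QuotientAddGroup.mk (hV y)).trans rfl)
      (fun g g' e q => by
        induction q using QuotientAddGroup.induction_on with
        | H y => exact congrArg QuotientAddGroup.mk (hπ g g' e y)) rfl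
    have hd : dlog p V = dlog p (V ⧸ S) + 1 := by
      rw [dlog_eq_padicValNat, dlog_eq_padicValNat, hcard,
        padicValNat.mul Nat.card_pos.ne' (Fact.out : p.Prime).ne_zero, padicValNat.self
          (Fact.out : p.Prime).one_lt]
      push_cast
      ring
    rw [h1, h2, hd]
    ring

section Lattice

variable {L L' : Type} [AddCommGroup L] [DistribMulAction G L] [Module.Free ℤ L]
  [Module.Finite ℤ L] [AddCommGroup L'] [DistribMulAction G L'] [Module.Free ℤ L']
  [Module.Finite ℤ L']

/-- reductions of lattices are finite -/
theorem finite_mod_p (L : Type) [AddCommGroup L] [Module.Finite ℤ L] :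
    Finite (L ⧸ pSub p L) := by
  have : Module.Finite ℤ (L ⧸ pSub p L) :=
    Module.Finite.of_surjective (QuotientAddGroup.mk' (pSub p L)).toIntLinearMap
      (QuotientAddGroup.mk'_surjective _)
  refine Module.finite_of_fg_torsion _ fun {c} => ⟨⟨(p : ℤ), mem_nonZeroDivisors_of_ne_zero
    (by exact_mod_cast (Fact.out : p.Prime).ne_zero)⟩, ?_⟩
  induction c using QuotientAddGroup.induction_on with
  | H x =>
    show (p : ℤ) • (QuotientAddGroup.mk x : L ⧸ pSub p L) = 0
    rw [natCast_zsmul]
    exact (QuotientAddGroup.eq_zero_iff _).2 (mem_pSub.2 ⟨x, rfl⟩)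

/-- the map modulo `p` -/
def modMap (j : L' →+[G] L) : L' ⧸ pSub p L' →+[G] L ⧸ pSub p L where
  toFun := QuotientAddGroup.map _ _ (j : L' →+ L) (fun x hx => by
    obtain ⟨y, rfl⟩ := mem_pSub.1 hx
    exact mem_pSub.2 ⟨j y, (map_nsmul j p y).symm⟩)
  map_smul' g x := by
    induction x using QuotientAddGroup.induction_on with
    | H y => exact congrArg QuotientAddGroup.mk (map_smul j g y)
  map_zero' := map_zero _
  map_add' := map_add _

/-- one step: an inclusion with `p`-torsion cokernel -/
theorem AddInv.val_mod_eq_step (j : L' →+[G] L) (hj : Function.Injective j)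
    (hp : ∀ x : L, ∃ y, j y = p • x) :
    a.val (L' ⧸ pSub p L') = a.val (L ⧸ pSub p L) := by
  have := finite_mod_p (p := p) L
  have := finite_mod_p (p := p) L'
  let φ := modMap (p := p) j
  let S : AddSubgroup L := (j : L' →+ L).range
  let _ : DistribMulAction G (L ⧸ S) :=
    { smul := fun g => QuotientAddGroup.map S S (DistribSMul.toAddMonoidHom L g) (by
        rintro _ ⟨x, rfl⟩
        exact ⟨g • x, map_smul j g x⟩)
      one_smul := fun q => by
        induction q using QuotientAddGroup.induction_on with
        | H y => exact congrArg QuotientAddGroup.mk (one_smul G y)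
      mul_smul := fun g h q => by
        induction q using QuotientAddGroup.induction_on with
        | H y => exact congrArg QuotientAddGroup.mk (mul_smul g h y)
      smul_zero := fun g => congrArg QuotientAddGroup.mk (smul_zero g)
      smul_add := fun g q q' => map_add _ q q' }
  let ψ : L ⧸ pSub p L →+[G] L ⧸ S :=
    { toFun := QuotientAddGroup.map _ S (AddMonoidHom.id L) (fun x hx => by
        obtain ⟨y, rfl⟩ := mem_pSub.1 hx
        obtain ⟨z, hz⟩ := hp y
        exact ⟨z, hz⟩)
      map_smul' := fun g x => by
        induction x using QuotientAddGroup.induction_on with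
        | H y => rfl
      map_zero' := map_zero _
      map_add' := map_add _ }
  have hψs : Function.Surjective ψ := fun q => by
    induction q using QuotientAddGroup.induction_on with
    | H y => exact ⟨QuotientAddGroup.mk y, rfl⟩
  have hV : ∀ (T : Type) [AddCommGroup T], ∀ v : T ⧸ pSub p T, p • v = 0 := fun T _ v => by
    induction v using QuotientAddGroup.induction_on with
    | H y => exact (QuotientAddGroup.eq_zero_iff _).2 (mem_pSub.2 ⟨y, rfl⟩)
  choose u hu using fun x => hp x
  let c : L →+[G] L' ⧸ pSub p L' :=
    { toFun := fun x => QuotientAddGroup.mk (u x)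
      map_smul' := fun g x => (congrArg QuotientAddGroup.mk (hj (by
        rw [hu, map_smul, hu]
        exact smul_comm p g x) : u (g • x) = g • u x)).trans rfl
      map_zero' := congrArg QuotientAddGroup.mk (hj (by rw [hu, map_zero, smul_zero]) : u 0 = 0)
      map_add' := fun x y => (congrArg QuotientAddGroup.mk (hj (by
        rw [hu, map_add, hu, hu, nsmul_add]) : u (x + y) = u x + u y)).trans rfl }
  let κ : L ⧸ S →+[G] L' ⧸ pSub p L' :=
    { toFun := QuotientAddGroup.lift S (c : L →+ L' ⧸ pSub p L') (by
        rintro _ ⟨y, rfl⟩
        refine (QuotientAddGroup.eq_zero_iff _).2 (mem_pSub.2 ⟨y, hj ?_⟩)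
        rw [map_nsmul]
        exact (hu _).symm)
      map_smul' := fun g x => by
        induction x using QuotientAddGroup.induction_on with
        | H y => exact map_smul c g y
      map_zero' := map_zero _
      map_add' := map_add _ }
  have hκ : Function.Injective κ := by
    refine (injective_iff_map_eq_zero κ).2 fun x hx => ?_
    induction x using QuotientAddGroup.induction_on with
    | H y =>
      obtain ⟨z, hz⟩ := mem_pSub.1 ((QuotientAddGroup.eq_zero_iff _).1 (hx : c y = 0))
      refine (QuotientAddGroup.eq_zero_iff _).2 ⟨z, ?_⟩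
      have e : p • (j z) = p • y := by rw [← map_nsmul, hz, hu]
      have : Module.IsTorsionFree ℤ L := inferInstance
      have e' : (p : ℤ) • j z = (p : ℤ) • y := by rw [natCast_zsmul, natCast_zsmul]; exact e
      exact smul_right_injective L (show (p : ℤ) ≠ 0 by
        exact_mod_cast (Fact.out : p.Prime).ne_zero) e'
  have hφψ : ∀ v, ψ (φ v) = 0 := fun v => by
    induction v using QuotientAddGroup.induction_on with
    | H y => exact (QuotientAddGroup.eq_zero_iff _).2 ⟨y, rfl⟩
  let φK : L' ⧸ pSub p L' →+[G] kerOf ψ :=
    { toFun := fun v => ⟨φ v, hφψ v⟩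
      map_smul' := fun g v => Subtype.ext (map_smul φ g v)
      map_zero' := Subtype.ext (map_zero φ)
      map_add' := fun v w => Subtype.ext (map_add φ v w) }
  have hφK : Function.Surjective φK := by
    rintro ⟨v, hv⟩
    induction v using QuotientAddGroup.induction_on with
    | H y =>
      obtain ⟨z, hz⟩ := (QuotientAddGroup.eq_zero_iff _).1 hv
      exact ⟨QuotientAddGroup.mk z, Subtype.ext (congrArg QuotientAddGroup.mk hz)⟩
  have hker : ∀ v, φK v = 0 ↔ ∃ w, κ w = v := by
    intro v
    induction v using QuotientAddGroup.induction_on with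
    | H y =>
      constructor
      · intro h
        obtain ⟨x, hx⟩ := mem_pSub.1 ((QuotientAddGroup.eq_zero_iff _).1 (congrArg Subtype.val h))
        refine ⟨QuotientAddGroup.mk x, ?_⟩
        show (QuotientAddGroup.mk (u x) : L' ⧸ pSub p L') = QuotientAddGroup.mk y
        rw [hj ((hu x).trans hx)]
      · rintro ⟨w, hw⟩
        induction w using QuotientAddGroup.induction_on with
        | H x =>
          rw [← hw]
          refine Subtype.ext ((QuotientAddGroup.eq_zero_iff _).2 ?_)
          exact mem_pSub.2 ⟨x, (hu x).symm⟩
  have e1 := a.val_eq_ker_add ψ hψs (hV L)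
  have e2 := a.add κ φK (hV L') hκ hφK hker
  omega

/-- lattices with the same rational representation have reductions with the same invariants -/
theorem AddInv.val_mod_eq (j : L' →+[G] L) (hj : Function.Injective j)
    (hi : (j : L' →+ L).range.index ≠ 0) :
    a.val (L' ⧸ pSub p L') = a.val (L ⧸ pSub p L) := by
  induction hn : (j : L' →+ L).range.index using Nat.strong_induction_on generalizing L' with
  | _ n ih =>
    have := finite_mod_p (p := p) L
    have := finite_mod_p (p := p) L'
    have hV : ∀ v : L ⧸ pSub p L, p • v = 0 := fun v => by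
      induction v using QuotientAddGroup.induction_on with
      | H y => exact (QuotientAddGroup.eq_zero_iff _).2 (mem_pSub.2 ⟨y, rfl⟩)
    let S := (j : L' →+ L).range
    have : Finite (L ⧸ S) := Nat.finite_of_card_ne_zero hi
    by_cases hdvd : p ∣ n
    · -- enlarge by the elements whose `p`-multiple lies in the image
      let mp : L →+ L ⧸ S := (QuotientAddGroup.mk' S).comp (nsmulAddMonoidHom p)
      let M1 : AddSubgroup L := mp.ker
      let j1' : L →+[G] L :=
        { toFun := fun x => p • x, map_smul' := fun g x => (smul_comm g p x).symm,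
          map_zero' := nsmul_zero p, map_add' := fun x y => nsmul_add x y p }
      have hM1 : ∀ (g : G) (x : L), x ∈ M1 → g • x ∈ M1 := fun g x hx => by
        obtain ⟨y, hy⟩ := (QuotientAddGroup.eq_zero_iff _).1 hx
        refine (QuotientAddGroup.eq_zero_iff _).2 ⟨g • y, ?_⟩
        show j (g • y) = p • g • x
        rw [map_smul, show j y = p • x from hy, smul_comm]
      let _ : DistribMulAction G M1 :=
        { smul := fun g x => ⟨g • (x : L), hM1 g x x.2⟩
          one_smul := fun x => Subtype.ext (one_smul G (x : L))
          mul_smul := fun g h x => Subtype.ext (mul_smul g h (x : L))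
          smul_zero := fun g => Subtype.ext (smul_zero g)
          smul_add := fun g x y => Subtype.ext (smul_add g (x : L) y) }
      have : Module.Free ℤ M1 :=
        Module.Free.of_equiv ((AddEquiv.refl (AddSubgroup.toIntSubmodule M1)).toIntLinearEquiv :
          AddSubgroup.toIntSubmodule M1 ≃ₗ[ℤ] M1)
      have : Module.Finite ℤ M1 :=
        Module.Finite.of_injective M1.subtype.toIntLinearMap Subtype.val_injective
      have hjm : ∀ y, j y ∈ M1 := fun y => (QuotientAddGroup.eq_zero_iff _).2
        ⟨p • y, map_nsmul j p y⟩
      let j' : L' →+[G] M1 :=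
        { toFun := fun y => ⟨j y, hjm y⟩
          map_smul' := fun g y => Subtype.ext (map_smul j g y)
          map_zero' := Subtype.ext (map_zero j)
          map_add' := fun y z => Subtype.ext (map_add j y z) }
      let jin : M1 →+[G] L :=
        { toFun := fun x => (x : L), map_smul' := fun g x => rfl, map_zero' := rfl,
          map_add' := fun x y => rfl }
      have hr : (jin : M1 →+ L).range = M1 := M1.range_subtype
      have hSM : S < M1 := by
        refine lt_of_le_of_ne (by rintro _ ⟨y, rfl⟩; exact hjm y) fun e => ?_
        let _ := Fintype.ofFinite (L ⧸ S)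
        obtain ⟨q, hq⟩ := exists_prime_addOrderOf_dvd_card (G := L ⧸ S) p (by
          rw [← Nat.card_eq_fintype_card, show Nat.card (L ⧸ S) = n from hn]; exact hdvd)
        induction q using QuotientAddGroup.induction_on with
        | H x =>
          have hx : x ∈ M1 := by
            show mp x = 0
            show (QuotientAddGroup.mk (p • x) : L ⧸ S) = 0
            rw [QuotientAddGroup.mk_nsmul, ← hq]
            exact addOrderOf_nsmul_eq_zero _
          rw [← e, ← QuotientAddGroup.eq_zero_iff] at hx
          rw [hx, addOrderOf_zero] at hq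
          exact (Fact.out : p.Prime).one_lt.ne hq
      have hlt : M1.index < n := by
        rw [← hn]
        have hm : S.relIndex M1 * M1.index = S.index := AddSubgroup.relIndex_mul_index hSM.le
        have h1 : S.relIndex M1 ≠ 1 := fun h => hSM.not_ge (AddSubgroup.relIndex_eq_one.1 h)
        have h0 : S.relIndex M1 ≠ 0 ∧ M1.index ≠ 0 := mul_ne_zero_iff.1 (hm ▸ hi)
        rw [← hm]
        exact lt_mul_of_one_lt_left (Nat.pos_of_ne_zero h0.2) (by omega)
      rw [a.val_mod_eq_step j' (fun y z h => hj (congrArg Subtype.val h)) fun x => by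
        obtain ⟨y, hy⟩ := (QuotientAddGroup.eq_zero_iff _).1 (x.2 : mp x.1 = 0)
        exact ⟨y, Subtype.ext hy⟩]
      refine ih M1.index hlt jin Subtype.val_injective ?_ (by rw [hr])
      rw [hr]
      intro h0
      have hm : S.relIndex M1 * M1.index = S.index := AddSubgroup.relIndex_mul_index hSM.le
      exact hi (by rw [← hm, h0, mul_zero])
    · -- index prime to `p`
      have hndvd : ∀ x : L, p • x ∈ S → x ∈ S := fun x hx => by
        refine mem_of_two hdvd ?_ hx
        rw [← hn]
        exact S.nsmul_index_mem x
      refine a.congr (modMap j) ⟨?_, ?_⟩ hV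
      · refine (injective_iff_map_eq_zero (modMap (p := p) j)).2 fun v hv => ?_
        induction v using QuotientAddGroup.induction_on with
        | H y =>
          obtain ⟨x, hx⟩ := mem_pSub.1 ((QuotientAddGroup.eq_zero_iff _).1 hv)
          obtain ⟨z, hz⟩ := hndvd x ⟨y, hx.symm⟩
          refine (QuotientAddGroup.eq_zero_iff _).2 (mem_pSub.2 ⟨z, hj ?_⟩)
          rw [map_nsmul]
          exact (congrArg (p • ·) hz).trans hx
      · intro v
        induction v using QuotientAddGroup.induction_on with
        | H x =>
          let T : AddSubgroup (L ⧸ pSub p L) :=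
            ((modMap (p := p) j : L' ⧸ pSub p L' →+[G] L ⧸ pSub p L) :
              L' ⧸ pSub p L' →+ L ⧸ pSub p L).range
          have h1 : n • (QuotientAddGroup.mk x : L ⧸ pSub p L) ∈ T := by
            obtain ⟨y, hy⟩ : n • x ∈ S := hn ▸ S.nsmul_index_mem x
            exact ⟨QuotientAddGroup.mk y, congrArg QuotientAddGroup.mk hy⟩
          exact mem_of_two hdvd h1 (by rw [hV]; exact zero_mem T)

end Lattice

end Fermat.Agent.ClassField.GW

end
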