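import Mathlib.GroupTheory.GroupAction.Quotient
import Mathlib.Algebra.Group.Action.Sigma
import Mathlib.GroupTheory.SpecificGroups.Cyclic
import Mathlib.Algebra.BigOperators.Fin
import Mathlib.Algebra.Group.Subgroup.Finite
import Mathlib.Tactic.Linarith
import Mathlib.Tactic.Ring

/-!
# Artin induction on the level of fixed-point counts
-/

set_option autoImplicit false

noncomputable section

namespace Fermat.Agent.ClassField.GW

variable {G : Type} [Group G] [Finite G]

/-- the number of fixed points of `g` -/
def fixCount (Y : Type) [MulAction G Y] (g : G) : ℕ := Nat.card {y : Y // g • y = y}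

/-- the disjoint union of coset spaces -/
abbrev cosetUnion {n : ℕ} (H : Fin n → Subgroup G) : Type := Σ i : Fin n, G ⧸ H i

theorem fixCount_cosetUnion {n : ℕ} (H : Fin n → Subgroup G) (g : G) :
    fixCount (cosetUnion H) g = ∑ i, fixCount (G ⧸ H i) g := by
  rw [fixCount]
  simp only [fixCount, ← Nat.card_sigma]
  refine Nat.card_congr
    { toFun := fun y => ⟨y.1.1, ⟨y.1.2, ?_⟩⟩
      invFun := fun z => ⟨⟨z.1, z.2.1⟩, by rw [Sigma.smul_mk, z.2.2]⟩
      left_inv := fun y => rfl
      right_inv := fun z => rfl }
  obtain ⟨⟨i, y⟩, hy⟩ := y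
  rw [Sigma.smul_mk] at hy
  exact eq_of_heq (Sigma.mk.inj hy).2

omit [Finite G] in
theorem fixCount_top (g : G) : fixCount (G ⧸ (⊤ : Subgroup G)) g = 1 := by
  have : Subsingleton (G ⧸ (⊤ : Subgroup G)) := QuotientGroup.subsingleton_quotient_top
  rw [fixCount, Nat.card_eq_one_iff_unique]
  exact ⟨⟨fun a b => Subtype.ext (Subsingleton.elim _ _)⟩,
    ⟨⟨QuotientGroup.mk 1, Subsingleton.elim _ _⟩⟩⟩

/-- differences of fixed-point counts of unions of coset spaces of cyclic subgroups -/
def cyclicSpan : AddSubgroup (G → ℤ) where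
  carrier := {f | ∃ (n n' : ℕ) (H : Fin n → Subgroup G) (H' : Fin n' → Subgroup G),
    (∀ i, IsCyclic (H i)) ∧ (∀ i, IsCyclic (H' i)) ∧
    ∀ g, f g = ∑ i, (fixCount (G ⧸ H i) g : ℤ) - ∑ i, (fixCount (G ⧸ H' i) g : ℤ)}
  zero_mem' := ⟨0, 0, (Fin.elim0 : Fin 0 → Subgroup G), (Fin.elim0 : Fin 0 → Subgroup G),
    fun i => i.elim0, fun i => i.elim0, fun g => by simp⟩
  add_mem' := by
    rintro f f' ⟨n, n', H, H', h, h', e⟩ ⟨m, m', K, K', k, k', e'⟩
    refine ⟨n + m, n' + m', Fin.append H K, Fin.append H' K', fun i => ?_, fun i => ?_, fun g => ?_⟩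
    · exact Fin.addCases (motive := fun i => IsCyclic ↥((Fin.append H K : Fin (n + m) → Subgroup G) i))
        (fun i => by rw [Fin.append_left]; exact h i) (fun i => by rw [Fin.append_right]; exact k i) i
    · exact Fin.addCases (motive := fun i => IsCyclic ↥((Fin.append H' K' : Fin (n' + m') → Subgroup G) i))
        (fun i => by rw [Fin.append_left]; exact h' i)
        (fun i => by rw [Fin.append_right]; exact k' i) i
    · rw [Pi.add_apply, e, e', Fin.sum_univ_add, Fin.sum_univ_add]
      have t1 : ∀ {a b : ℕ} (A : Fin a → Subgroup G) (B : Fin b → Subgroup G) (i : Fin a),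
          fixCount (G ⧸ (Fin.append A B (Fin.castAdd b i))) g = fixCount (G ⧸ A i) g :=
        fun A B i => by rw [Fin.append_left]
      have t2 : ∀ {a b : ℕ} (A : Fin a → Subgroup G) (B : Fin b → Subgroup G) (i : Fin b),
          fixCount (G ⧸ (Fin.append A B (Fin.natAdd a i))) g = fixCount (G ⧸ B i) g :=
        fun A B i => by rw [Fin.append_right]
      simp only [t1, t2]
      ring
  neg_mem' := by
    rintro f ⟨n, n', H, H', h, h', e⟩
    exact ⟨n', n, H', H, h', h, fun g => by rw [Pi.neg_apply, e]; ring⟩

theorem fix_mem_cyclicSpan (D : Subgroup G) (hD : IsCyclic D) :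
    (fun g : G => (fixCount (G ⧸ D) g : ℤ)) ∈ cyclicSpan (G := G) :=
  ⟨1, 0, fun _ => D, (Fin.elim0 : Fin 0 → Subgroup G), fun _ => hD, fun i => i.elim0,
    fun g => by simp⟩

/-- `#{x | x⁻¹gx` generates `D}` -/
def genCount (D : Subgroup G) (g : G) : ℤ :=
  (Nat.card {x : G // Subgroup.zpowers (x⁻¹ * g * x) = D} : ℤ)

omit [Finite G] in
theorem card_conj_mem (D : Subgroup G) (g : G) :
    Nat.card {x : G // x⁻¹ * g * x ∈ D} = Nat.card D * fixCount (G ⧸ D) g := by
  rw [fixCount, ← Nat.card_prod]
  refine Nat.card_congr ((Equiv.subtypeEquivRight fun x => ?_).trans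
    (QuotientGroup.preimageMkEquivSubgroupProdSet D {y : G ⧸ D | g • y = y}))
  show _ ↔ g • (QuotientGroup.mk x : G ⧸ D) = QuotientGroup.mk x
  rw [MulAction.Quotient.smul_mk, smul_eq_mul, eq_comm, QuotientGroup.eq, mul_assoc]

theorem genCount_mem (D : Subgroup G) : genCount D ∈ cyclicSpan := by
  classical
  letI := Fintype.ofFinite G
  have : Finite (Subgroup G) :=
    Finite.of_injective (fun H : Subgroup G => (H : Set G)) SetLike.coe_injective
  letI := Fintype.ofFinite (Subgroup G)
  induction D using (measure (fun D : Subgroup G => Nat.card D)).wf.induction with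
  | _ D ih =>
    by_cases hD : IsCyclic D
    · let s : Finset (Subgroup G) := Finset.univ.filter (fun E => E < D)
      have hsum : genCount D =
          (Nat.card D) • (fun g => (fixCount (G ⧸ D) g : ℤ)) - ∑ E ∈ s, genCount E := by
        funext g
        rw [Pi.sub_apply, Finset.sum_apply, Pi.smul_apply, nsmul_eq_mul, ← Nat.cast_mul,
          ← card_conj_mem]
        simp only [genCount, Nat.card_eq_fintype_card, Fintype.card_subtype]
        have e := Finset.card_eq_sum_card_fiberwise
          (f := fun x : G => Subgroup.zpowers (x⁻¹ * g * x))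
          (s := Finset.univ.filter fun x : G => x⁻¹ * g * x ∈ D) (t := insert D s) fun x hx => by
            simp only [Finset.coe_filter, Finset.mem_univ, true_and, Set.mem_ofPred_eq] at hx
            simp only [Finset.coe_insert, Set.mem_insert_iff, Finset.mem_coe, s, Finset.mem_filter,
              Finset.mem_univ, true_and]
            exact eq_or_lt_of_le (Subgroup.zpowers_le.2 hx)
        have hf : ∀ E ∈ insert D s, (Finset.univ.filter fun x : G => x⁻¹ * g * x ∈ D).filter
            (fun x => Subgroup.zpowers (x⁻¹ * g * x) = E) =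
            Finset.univ.filter fun x : G => Subgroup.zpowers (x⁻¹ * g * x) = E := fun E hE => by
          ext x
          simp only [Finset.mem_filter, Finset.mem_univ, true_and, and_iff_right_iff_imp]
          intro h
          refine Subgroup.zpowers_le.1 (h ▸ ?_)
          rcases Finset.mem_insert.1 hE with rfl | hE
          · exact le_rfl
          · exact le_of_lt (Finset.mem_filter.1 hE).2
        rw [e, Finset.sum_congr rfl fun E hE => by rw [hf E hE],
          Finset.sum_insert (by simp [s])]
        push_cast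
        ring
      rw [hsum]
      refine sub_mem (AddSubgroup.nsmul_mem _ (fix_mem_cyclicSpan D hD) _) (sum_mem fun E hE => ?_)
      refine ih E ?_
      exact Set.Finite.card_lt_card (Set.toFinite _) (SetLike.coe_ssubset_coe.2
        (Finset.mem_filter.1 hE).2)
    · have : genCount D = 0 := funext fun g => by
        have : IsEmpty {x : G // Subgroup.zpowers (x⁻¹ * g * x) = D} :=
          ⟨fun x => hD (x.2 ▸ inferInstance)⟩
        simp [genCount]
      rw [this]
      exact zero_mem _

variable (G) in
/-- a positive multiple of the point agrees with a difference of cyclic coset spaces -/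
theorem exists_artin_relation : ∃ (n n' : ℕ) (H : Fin n → Subgroup G) (H' : Fin n' → Subgroup G),
    (∀ i, IsCyclic (H i)) ∧ (∀ i, IsCyclic (H' i)) ∧
    ∀ g : G, Nat.card G + ∑ i, fixCount (G ⧸ H' i) g = ∑ i, fixCount (G ⧸ H i) g := by
  classical
  letI := Fintype.ofFinite G
  have : Finite (Subgroup G) :=
    Finite.of_injective (fun H : Subgroup G => (H : Set G)) SetLike.coe_injective
  letI := Fintype.ofFinite (Subgroup G)
  have hm : (fun _ : G => (Nat.card G : ℤ)) ∈ cyclicSpan (G := G) := by
    have : (fun _ : G => (Nat.card G : ℤ)) = ∑ E : Subgroup G, genCount E := by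
      funext g
      rw [Finset.sum_apply]
      simp only [genCount, Nat.card_eq_fintype_card, Fintype.card_subtype, ← Nat.cast_sum]
      norm_cast
      rw [← Finset.card_univ, Finset.card_eq_sum_card_fiberwise
        (f := fun x : G => Subgroup.zpowers (x⁻¹ * g * x)) (t := Finset.univ)
        (fun x _ => Finset.mem_univ _)]
    rw [this]
    exact sum_mem fun E _ => genCount_mem E
  obtain ⟨n, n', H, H', h, h', e⟩ := hm
  refine ⟨n, n', H, H', h, h', fun g => ?_⟩
  have := e g
  have e2 : ((Nat.card G + ∑ i, fixCount (G ⧸ H' i) g : ℕ) : ℤ) =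
      ((∑ i, fixCount (G ⧸ H i) g : ℕ) : ℤ) := by
    push_cast
    linarith
  exact_mod_cast e2

end Fermat.Agent.ClassField.GW

end
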