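import Mathlib.RepresentationTheory.Character
import Mathlib.RepresentationTheory.Maschke

/-!
# Representations of a finite group in characteristic zero are determined by their characters
-/

set_option autoImplicit false

namespace Fermat.Agent.ClassField.GW

open Module

variable {k : Type*} [Field k] [CharZero k] {G : Type*} [Group G] [Fintype G]
variable {V W : Type*} [AddCommGroup V] [Module k V] [FiniteDimensional k V] [AddCommGroup W]
  [Module k W] [FiniteDimensional k W]

omit [FiniteDimensional k V] in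
/-- an invariant complement -/
theorem exists_invariant_compl (ρ : Representation k G V) (U : Submodule k V)
    (hU : ∀ g, ∀ x ∈ U, ρ g x ∈ U) :
    ∃ U' : Submodule k V, IsCompl U U' ∧ ∀ g, ∀ x ∈ U', ρ g x ∈ U' := by
  obtain ⟨U₀, hU₀⟩ := Submodule.exists_isCompl U
  let π₀ : V →ₗ[k] V := U.projection U₀ hU₀
  have h0 : ∀ v, π₀ v ∈ U := fun v => by simp [π₀]
  have h1 : ∀ u ∈ U, π₀ u = u := fun u hu => by
    simpa [π₀] using Submodule.projection_apply_left hU₀ ⟨u, hu⟩
  let P : V →ₗ[k] V := (Fintype.card G : k)⁻¹ • ∑ g : G, ρ g ∘ₗ π₀ ∘ₗ ρ g⁻¹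
  have hc : (Fintype.card G : k) ≠ 0 := by simp
  have hP : ∀ v, P v = (Fintype.card G : k)⁻¹ • ∑ g : G, ρ g (π₀ (ρ g⁻¹ v)) := fun v => by
    simp [P]
  have hPU : ∀ v, P v ∈ U := fun v => by
    rw [hP]
    exact U.smul_mem _ (sum_mem fun g _ => hU g _ (h0 _))
  have hPid : ∀ u ∈ U, P u = u := fun u hu => by
    rw [hP, Finset.sum_eq_card_nsmul (b := u) fun g _ => by
      rw [h1 _ (hU g⁻¹ u hu)]
      simp, Finset.card_univ, ← Nat.cast_smul_eq_nsmul k, inv_smul_smul₀ hc]
  have hPeq : ∀ h v, P (ρ h v) = ρ h (P v) := fun h v => by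
    rw [hP, hP, map_smul, map_sum]
    congr 1
    refine Fintype.sum_equiv (Equiv.mulLeft h⁻¹) _ _ fun g => ?_
    simp [Equiv.coe_mulLeft, mul_inv_rev, map_mul]
  refine ⟨LinearMap.ker P, ⟨?_, ?_⟩, fun g x hx => ?_⟩
  · rw [Submodule.disjoint_def]
    intro x hx hxk
    rw [← hPid x hx]
    exact hxk
  · rw [codisjoint_iff, eq_top_iff]
    intro x _
    rw [show x = P x + (x - P x) by abel]
    refine Submodule.add_mem_sup (hPU x) ?_
    rw [LinearMap.mem_ker, map_sub, hPid _ (hPU x), sub_self]
  · rw [LinearMap.mem_ker, hPeq, LinearMap.mem_ker.1 hx, map_zero]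

omit [CharZero k] [Fintype G] in
/-- characters are additive along invariant decompositions -/
theorem trace_eq_add_of_isCompl (ρ : Representation k G V) {U U' : Submodule k V}
    (h : IsCompl U U') (hU : ∀ g, ∀ x ∈ U, ρ g x ∈ U) (hU' : ∀ g, ∀ x ∈ U', ρ g x ∈ U') (g : G) :
    LinearMap.trace k V (ρ g) =
      LinearMap.trace k U ((ρ g).restrict (hU g)) + LinearMap.trace k U' ((ρ g).restrict (hU' g)) := by
  let e := Submodule.prodEquivOfIsCompl U U' h
  have he : ρ g = e.conj (((ρ g).restrict (hU g)).prodMap ((ρ g).restrict (hU' g))) := by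
    refine LinearMap.ext fun v => ?_
    obtain ⟨⟨a, b⟩, rfl⟩ := e.surjective v
    simp [e, LinearEquiv.conj_apply, Submodule.coe_prodEquivOfIsCompl', map_add]
  refine (congrArg (LinearMap.trace k V) he).trans ?_
  rw [LinearMap.trace_conj', LinearMap.trace_prodMap']

/-- **Characters determine representations.** -/
theorem exists_equiv_of_trace_eq (ρ : Representation k G V) (σ : Representation k G W)
    (h : ∀ g, LinearMap.trace k V (ρ g) = LinearMap.trace k W (σ g)) :
    ∃ f : V ≃ₗ[k] W, ∀ g v, f (ρ g v) = σ g (f v) := by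
  classical
  have : Invertible (Nat.card G : k) := invertibleOfNonzero (by simp)
  have hdim : finrank k V = finrank k W := by
    have := h 1
    simp only [map_one, LinearMap.trace_one] at this
    exact_mod_cast this
  let S : Set ℕ := {n | ∃ f : V →ₗ[k] W, (∀ g v, f (ρ g v) = σ g (f v)) ∧
    finrank k (LinearMap.range f) = n}
  have hS : S.Nonempty := ⟨0, 0, by simp, by simp⟩
  have hb : BddAbove S := ⟨finrank k W, by rintro n ⟨f, -, rfl⟩; exact Submodule.finrank_le _⟩
  obtain ⟨f, hf, hn⟩ := Nat.sSup_mem hS hb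
  by_cases hK : LinearMap.ker f = ⊥
  · exact ⟨LinearMap.linearEquivOfInjective f (LinearMap.ker_eq_bot.1 hK) hdim, fun g v => by
      simpa using hf g v⟩
  exfalso
  let K := LinearMap.ker f
  let I := LinearMap.range f
  have hKs : ∀ g, ∀ x ∈ K, ρ g x ∈ K := fun g x hx => by
    rw [LinearMap.mem_ker, hf, LinearMap.mem_ker.1 hx, map_zero]
  have hIs : ∀ g, ∀ x ∈ I, σ g x ∈ I := by
    rintro g _ ⟨v, rfl⟩
    exact ⟨ρ g v, hf g v⟩
  obtain ⟨K', hK', hK's⟩ := exists_invariant_compl ρ K hKs
  obtain ⟨C, hC, hCs⟩ := exists_invariant_compl σ I hIs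
  let fI : K' →ₗ[k] I := (f.domRestrict K').codRestrict I fun x => ⟨x.1, rfl⟩
  have hfI : Function.Bijective fI := by
    refine ⟨fun a b e => Subtype.ext ?_, fun ⟨y, v, hv⟩ => ?_⟩
    · have e' : f (a.1 - b.1) = 0 := by
        rw [map_sub]
        exact sub_eq_zero.2 (congrArg Subtype.val e)
      exact sub_eq_zero.1 (Submodule.disjoint_def.1 hK'.disjoint _ (LinearMap.mem_ker.2 e')
        (K'.sub_mem a.2 b.2))
    · obtain ⟨a, ha, b, hb, e⟩ := Submodule.mem_sup.1
        (hK'.codisjoint.eq_top ▸ Submodule.mem_top : v ∈ K ⊔ K')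
      refine ⟨⟨b, hb⟩, Subtype.ext ?_⟩
      show f b = y
      rw [← hv, ← e, map_add, LinearMap.mem_ker.1 ha, zero_add]
  let eI := LinearEquiv.ofBijective fI hfI
  let ρK : Representation k G K :=
    { toFun := fun g => (ρ g).restrict (hKs g)
      map_one' := LinearMap.ext fun x => Subtype.ext (by simp)
      map_mul' := fun a b => LinearMap.ext fun x => Subtype.ext (by simp) }
  let σC : Representation k G C :=
    { toFun := fun g => (σ g).restrict (hCs g)
      map_one' := LinearMap.ext fun x => Subtype.ext (by simp)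
      map_mul' := fun a b => LinearMap.ext fun x => Subtype.ext (by simp) }
  have htr : ∀ g, ρK.character g = σC.character g := fun g => by
    have h1 := trace_eq_add_of_isCompl ρ hK' hKs hK's g
    have h2 := trace_eq_add_of_isCompl σ hC hIs hCs g
    have h3 : eI.conj ((ρ g).restrict (hK's g)) = (σ g).restrict (hIs g) := by
      refine LinearMap.ext fun y => ?_
      obtain ⟨x, rfl⟩ := eI.surjective y
      refine Subtype.ext ?_
      simp only [LinearEquiv.conj_apply_apply, LinearEquiv.symm_apply_apply]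
      exact hf g x.1
    rw [h g, h2, ← h3, LinearMap.trace_conj', add_comm] at h1
    exact (add_right_cancel h1).symm
  have hne : finrank k (Representation.IntertwiningMap ρK σC) ≠ 0 := by
    have e1 := Representation.card_inv_mul_sum_char_mul_char_eq_finrank ρK ρK
    have e2 := Representation.card_inv_mul_sum_char_mul_char_eq_finrank ρK σC
    simp only [← htr] at e2
    have e : finrank k (Representation.IntertwiningMap ρK σC) =
        finrank k (Representation.IntertwiningMap ρK ρK) := by exact_mod_cast e2.symm.trans e1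
    rw [e]
    intro h0
    let one : Representation.IntertwiningMap ρK ρK :=
      ⟨LinearMap.id, fun g => by simp⟩
    have hsub : Subsingleton (Representation.IntertwiningMap ρK ρK) :=
      (finrank_zero_iff (R := k)).1 h0
    refine hK ((Submodule.eq_bot_iff _).2 fun x hx => ?_)
    have := congrArg (fun (u : Representation.IntertwiningMap ρK ρK) =>
      ((u.toLinearMap ⟨x, hx⟩ : K) : V)) (Subsingleton.elim one 0)
    simpa [one] using this
  obtain ⟨φ, hφ⟩ : ∃ φ : Representation.IntertwiningMap ρK σC, φ ≠ 0 := by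
    by_contra hall
    push_neg at hall
    have : Subsingleton (Representation.IntertwiningMap ρK σC) :=
      ⟨fun a b => by rw [hall a, hall b]⟩
    exact hne finrank_zero_of_subsingleton
  let pK : V →ₗ[k] K := K.projectionOnto K' hK'
  have hpK : ∀ g v, pK (ρ g v) = ρK g (pK v) := fun g v => by
    obtain ⟨a, ha, b, hb, rfl⟩ := Submodule.mem_sup.1
      (hK'.codisjoint.eq_top ▸ Submodule.mem_top : v ∈ K ⊔ K')
    have e : ∀ a ∈ K, ∀ b ∈ K', ((pK (a + b)) : V) = a := fun a ha b hb => by
      rw [map_add]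
      simp [pK, Submodule.projectionOnto_apply_left hK' ⟨a, ha⟩,
        Submodule.projectionOnto_apply_right hK' ⟨b, hb⟩]
    refine Subtype.ext ?_
    rw [map_add, e _ (hKs g a ha) _ (hK's g b hb)]
    show ρ g a = ρ g (pK (a + b) : V)
    rw [e a ha b hb]
  let f' : V →ₗ[k] W := f + C.subtype ∘ₗ φ.toLinearMap ∘ₗ pK
  have hf' : ∀ g v, f' (ρ g v) = σ g (f' v) := fun g v => by
    simp only [f', LinearMap.add_apply, LinearMap.coe_comp, Function.comp_apply, hf, hpK, map_add,
      Submodule.coe_subtype]
    congr 1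
    exact congrArg Subtype.val (LinearMap.congr_fun (φ.isIntertwining' g) (pK v))
  have hle : LinearMap.ker f' < K := by
    refine lt_of_le_of_ne (fun v hv => ?_) fun e => hφ ?_
    · rw [LinearMap.mem_ker] at hv ⊢
      exact Submodule.disjoint_def.1 hC.disjoint _ ⟨v, rfl⟩
        (by rw [show f v = -((C.subtype ∘ₗ φ.toLinearMap ∘ₗ pK) v) from eq_neg_of_add_eq_zero_left hv]
            exact C.neg_mem (φ.toLinearMap (pK v)).2)
    · refine Representation.IntertwiningMap.ext (LinearMap.ext fun x => Subtype.ext ?_)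
      have hxm : x.1 ∈ LinearMap.ker f' := by rw [e]; exact x.2
      have hx : f' x.1 = 0 := LinearMap.mem_ker.1 hxm
      have hp : pK x.1 = x := Submodule.projectionOnto_apply_left hK' x
      simpa [f', hp, LinearMap.mem_ker.1 x.2] using hx
  have hlt := Submodule.finrank_lt_finrank_of_lt hle
  have e1 := f.finrank_range_add_finrank_ker
  have e2 := f'.finrank_range_add_finrank_ker
  have : finrank k (LinearMap.range f') ≤ sSup S := le_csSup hb ⟨f', hf', rfl⟩
  change finrank k (LinearMap.ker f') < finrank k (LinearMap.ker f) at hlt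
  omega

end Fermat.Agent.ClassField.GW
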