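import Fermat.Agent.ClassField.GW.Artin.IsoOfChar
import Mathlib.LinearAlgebra.Matrix.ToLin
import Mathlib.LinearAlgebra.Trace
import Mathlib.LinearAlgebra.FreeModule.PID
import Mathlib.Algebra.Module.Torsion.Free
import Mathlib.Data.Rat.Lemmas
import Mathlib.GroupTheory.FiniteAbelian.Basic

/-!
# Lattices with the same traces are isogenous
-/

set_option autoImplicit false

noncomputable section

namespace Fermat.Agent.ClassField.GW

/-- an element of the group as a `ℤ`-linear map -/
def actLin (G : Type*) [Group G] (L : Type*) [AddCommGroup L] [DistribMulAction G L] (g : G) :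
    L →ₗ[ℤ] L :=
  (DistribSMul.toAddMonoidHom L g).toIntLinearMap

section Matrices

variable {ι κ : Type*} [Fintype ι] [Fintype κ]

theorem exists_int_multiple (F : Matrix κ ι ℚ) :
    ∃ (D : ℕ) (Z : Matrix κ ι ℤ), D ≠ 0 ∧ Z.map (Int.cast : ℤ → ℚ) = (D : ℚ) • F := by
  classical
  refine ⟨∏ i : κ, ∏ j : ι, (F i j).den, Matrix.of fun i j =>
    (F i j).num * ((∏ i : κ, ∏ j : ι, (F i j).den) / (F i j).den : ℕ), ?_, ?_⟩
  · simp [Finset.prod_ne_zero_iff]
  · ext i j
    have hd : (F i j).den ∣ ∏ i : κ, ∏ j : ι, (F i j).den :=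
      (Finset.dvd_prod_of_mem (fun j => (F i j).den) (Finset.mem_univ j)).trans
        (Finset.dvd_prod_of_mem (fun i => ∏ j : ι, (F i j).den) (Finset.mem_univ i))
    simp only [Matrix.map_apply, Matrix.of_apply, Matrix.smul_apply, smul_eq_mul]
    rw [Int.cast_mul, Int.cast_natCast, Nat.cast_div hd (by simp)]
    conv_rhs => rw [← Rat.num_div_den (F i j)]
    ring

end Matrices

variable {G : Type*} [Group G] [Fintype G]
variable {L₁ L₂ : Type*} [AddCommGroup L₁] [DistribMulAction G L₁] [Module.Free ℤ L₁]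
  [Module.Finite ℤ L₁] [AddCommGroup L₂] [DistribMulAction G L₂] [Module.Free ℤ L₂]
  [Module.Finite ℤ L₂]

/-- **Equal traces give an isogeny.** -/
theorem exists_isogeny_of_trace_eq
    (h : ∀ g : G, LinearMap.trace ℤ L₁ (actLin G L₁ g) = LinearMap.trace ℤ L₂ (actLin G L₂ g)) :
    ∃ j : L₁ →+[G] L₂, Function.Injective j ∧ (j : L₁ →+ L₂).range.index ≠ 0 := by
  classical
  let b₁ := Module.Free.chooseBasis ℤ L₁
  let b₂ := Module.Free.chooseBasis ℤ L₂
  let A₁ : G → Matrix _ _ ℤ := fun g => LinearMap.toMatrix b₁ b₁ (actLin G L₁ g)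
  let A₂ : G → Matrix _ _ ℤ := fun g => LinearMap.toMatrix b₂ b₂ (actLin G L₂ g)
  let c : ℤ →+* ℚ := Int.castRingHom ℚ
  have hm1 : ∀ g g', A₁ (g * g') = A₁ g * A₁ g' := fun g g' => by
    simp only [A₁, ← LinearMap.toMatrix_comp b₁ b₁ b₁]
    congr 1
    exact LinearMap.ext fun x => mul_smul g g' x
  have hm2 : ∀ g g', A₂ (g * g') = A₂ g * A₂ g' := fun g g' => by
    simp only [A₂, ← LinearMap.toMatrix_comp b₂ b₂ b₂]
    congr 1
    exact LinearMap.ext fun x => mul_smul g g' x
  have h11 : A₁ 1 = 1 := by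
    simp only [A₁, show actLin G L₁ (1 : G) = LinearMap.id from LinearMap.ext (one_smul G),
      LinearMap.toMatrix_id]
  have h21 : A₂ 1 = 1 := by
    simp only [A₂, show actLin G L₂ (1 : G) = LinearMap.id from LinearMap.ext (one_smul G),
      LinearMap.toMatrix_id]
  let ρ : Representation ℚ G (_ → ℚ) :=
    { toFun := fun g => Matrix.toLin' ((A₁ g).map c)
      map_one' := by rw [h11, Matrix.map_one c (map_zero c) (map_one c), Matrix.toLin'_one]; rfl
      map_mul' := fun g g' => by rw [hm1, Matrix.map_mul, Matrix.toLin'_mul]; rfl }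
  let σ : Representation ℚ G (_ → ℚ) :=
    { toFun := fun g => Matrix.toLin' ((A₂ g).map c)
      map_one' := by rw [h21, Matrix.map_one c (map_zero c) (map_one c), Matrix.toLin'_one]; rfl
      map_mul' := fun g g' => by rw [hm2, Matrix.map_mul, Matrix.toLin'_mul]; rfl }
  have htr : ∀ g, LinearMap.trace ℚ _ (ρ g) = LinearMap.trace ℚ _ (σ g) := fun g => by
    show LinearMap.trace ℚ _ (Matrix.toLin' ((A₁ g).map c)) =
      LinearMap.trace ℚ _ (Matrix.toLin' ((A₂ g).map c))
    rw [Matrix.trace_toLin'_eq, Matrix.trace_toLin'_eq]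
    have e := congrArg c (h g)
    rw [LinearMap.trace_eq_matrix_trace ℤ b₁, LinearMap.trace_eq_matrix_trace ℤ b₂] at e
    simpa [Matrix.trace, map_sum, A₁, A₂] using e
  obtain ⟨f, hf⟩ := exists_equiv_of_trace_eq ρ σ htr
  obtain ⟨D, Z, hD, hZ⟩ := exists_int_multiple (LinearMap.toMatrix' f.toLinearMap)
  obtain ⟨D', Z', hD', hZ'⟩ := exists_int_multiple (LinearMap.toMatrix' f.symm.toLinearMap)
  have hf' : ∀ g, LinearMap.toMatrix' f.toLinearMap * (A₁ g).map c =
      (A₂ g).map c * LinearMap.toMatrix' f.toLinearMap := fun g => by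
    apply Matrix.toLin'.injective
    rw [Matrix.toLin'_mul, Matrix.toLin'_mul, Matrix.toLin'_toMatrix']
    exact LinearMap.ext (hf g)
  have hZc : Z.map c = (D : ℚ) • LinearMap.toMatrix' f.toLinearMap := hZ
  have hZc' : Z'.map c = (D' : ℚ) • LinearMap.toMatrix' f.symm.toLinearMap := hZ'
  have hcomm : ∀ g, Z * A₁ g = A₂ g * Z := fun g => Matrix.map_injective (f := ⇑c) Int.cast_injective (by
    show (Z * A₁ g).map c = (A₂ g * Z).map c
    rw [Matrix.map_mul, Matrix.map_mul, hZc, Matrix.smul_mul, hf', Matrix.mul_smul])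
  have hprod : Z * Z' = (((D * D' : ℕ) : ℤ)) • (1 : Matrix _ _ ℤ) := by
    apply Matrix.map_injective (f := ⇑c) Int.cast_injective
    show (Z * Z').map c = Matrix.map ((((D * D' : ℕ) : ℤ)) • (1 : Matrix _ _ ℤ)) c
    rw [Matrix.map_mul, hZc, hZc', Matrix.smul_mul, Matrix.mul_smul,
      ← LinearMap.toMatrix'_comp f.toLinearMap f.symm.toLinearMap, smul_smul, show f.toLinearMap ∘ₗ f.symm.toLinearMap = LinearMap.id from
        LinearMap.ext f.apply_symm_apply, LinearMap.toMatrix'_id]
    rw [Matrix.smul_one_eq_diagonal, Matrix.smul_one_eq_diagonal, Matrix.diagonal_map (map_zero c)]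
    congr 1
    funext i
    simp [c]
  let lz : L₁ →ₗ[ℤ] L₂ := Matrix.toLin b₁ b₂ Z
  let lz' : L₂ →ₗ[ℤ] L₁ := Matrix.toLin b₂ b₁ Z'
  have heq : ∀ (g : G) (x : L₁), lz (g • x) = g • lz x := fun g x => by
    have e := congrArg (Matrix.toLin b₁ b₂) (hcomm g)
    rw [Matrix.toLin_mul b₁ b₁ b₂, Matrix.toLin_mul b₁ b₂ b₂, Matrix.toLin_toMatrix,
      Matrix.toLin_toMatrix] at e
    exact LinearMap.congr_fun e x
  let j : L₁ →+[G] L₂ :=
    { toFun := lz, map_smul' := heq, map_zero' := map_zero lz, map_add' := map_add lz }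
  have hinj : Function.Injective lz := by
    have hM : Function.Injective ((Z.map c).mulVec) := by
      intro x y e
      rw [hZc, Matrix.smul_mulVec, Matrix.smul_mulVec] at e
      have e2 := smul_right_injective _ (show (D : ℚ) ≠ 0 by exact_mod_cast hD) e
      rw [← Matrix.toLin'_apply, ← Matrix.toLin'_apply, Matrix.toLin'_toMatrix'] at e2
      exact f.injective e2
    intro x y e
    apply b₁.repr.injective
    have e' : Z.mulVec (b₁.repr x) = Z.mulVec (b₁.repr y) := by
      rw [← LinearMap.toMatrix_toLin b₁ b₂ Z, LinearMap.toMatrix_mulVec_repr,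
        LinearMap.toMatrix_mulVec_repr]
      exact congrArg (fun u => ⇑(b₂.repr u)) e
    have e'' : (Z.map c).mulVec (c ∘ b₁.repr x) = (Z.map c).mulVec (c ∘ b₁.repr y) := by
      funext i
      rw [← RingHom.map_mulVec, ← RingHom.map_mulVec, e']
    exact DFunLike.ext _ _ fun i => Int.cast_injective (congrFun (hM e'') i)
  have hrange : ∀ x : L₂, (D * D') • x ∈ (j : L₁ →+ L₂).range := fun x => by
    refine ⟨lz' x, ?_⟩
    show lz (lz' x) = _
    have e := congrArg (Matrix.toLin b₂ b₂) hprod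
    rw [Matrix.toLin_mul b₂ b₁ b₂, map_smul, Matrix.toLin_one] at e
    rw [show lz (lz' x) = ((((D * D' : ℕ) : ℤ)) • LinearMap.id (R := ℤ) (M := L₂)) x from
      LinearMap.congr_fun e x, LinearMap.smul_apply, LinearMap.id_apply, natCast_zsmul]
  refine ⟨j, hinj, ?_⟩
  have hfin : Module.Finite ℤ (L₂ ⧸ (j : L₁ →+ L₂).range) :=
    Module.Finite.of_surjective (QuotientAddGroup.mk' (j : L₁ →+ L₂).range).toIntLinearMap
      (QuotientAddGroup.mk'_surjective _)
  have : Finite (L₂ ⧸ (j : L₁ →+ L₂).range) := by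
    refine Module.finite_of_fg_torsion _ fun {q} => ⟨⟨((D * D' : ℕ) : ℤ),
      mem_nonZeroDivisors_of_ne_zero (by exact_mod_cast Nat.mul_ne_zero hD hD')⟩, ?_⟩
    induction q using QuotientAddGroup.induction_on with
    | H x =>
      show ((D * D' : ℕ) : ℤ) • (QuotientAddGroup.mk x : L₂ ⧸ (j : L₁ →+ L₂).range) = 0
      rw [natCast_zsmul]
      exact (QuotientAddGroup.eq_zero_iff _).2 (hrange x)
  exact AddSubgroup.index_ne_zero_of_finite

end Fermat.Agent.ClassField.GW

end
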