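import Fermat.Agent.ClassField.GW.Artin.AddInv
import Fermat.Agent.ClassField.GW.Artin.CyclicSets
import Fermat.Agent.ClassField.GW.Artin.Isogeny

/-!
# Additive invariants of permutation modules; Artin induction
-/

set_option autoImplicit false

noncomputable section

namespace Fermat.Agent.ClassField.GW

open Fermat.Agent.ClassField.S55

variable {p : ℕ} [Fact p.Prime] {G : Type} [Group G]

/-- the value on the permutation module of a `G`-set -/
def AddInv.perm (a : AddInv p G) (Y : Type) [MulAction G Y] : ℤ :=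
  a.val (PermMod Y (TrivMod G (ZMod p)))

theorem permMod_nsmul_eq_zero (Y : Type) (v : PermMod Y (TrivMod G (ZMod p))) :
    p • v = 0 := by
  refine PermMod.ext (funext fun y => ?_)
  show PermMod.evalHom y (p • v) = 0
  rw [map_nsmul]
  refine TrivMod.addEquiv.injective ?_
  rw [map_nsmul, map_zero]
  exact ZModModule.char_nsmul_eq_zero p _

instance finite_permMod {Y A : Type*} [Finite Y] [Finite A] : Finite (PermMod Y A) :=
  Finite.of_injective PermMod.val fun a b h => PermMod.ext h

/-- functions to `ℤ` as a linear equivalence -/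
def zPerm (G Y : Type) : (Y → ℤ) ≃ₗ[ℤ] PermMod Y (TrivMod G ℤ) :=
  AddEquiv.toIntLinearEquiv
    { toFun := fun f => ⟨fun y => ⟨f y⟩⟩, invFun := fun f y => (f.val y).val,
      left_inv := fun _ => rfl, right_inv := fun _ => rfl, map_add' := fun _ _ => rfl }

instance free_zPerm {Y : Type} [Finite Y] : Module.Free ℤ (PermMod Y (TrivMod G ℤ)) :=
  Module.Free.of_equiv (zPerm G Y)

instance finite_zPerm {Y : Type} [Finite Y] : Module.Finite ℤ (PermMod Y (TrivMod G ℤ)) :=
  Module.Finite.equiv (zPerm G Y)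

variable {Y : Type} [MulAction G Y]

omit [Fact p.Prime] in
/-- the trace on a permutation lattice is the number of fixed points -/
theorem trace_zPerm [Finite Y] [Finite G] (g : G) :
    LinearMap.trace ℤ (PermMod Y (TrivMod G ℤ)) (actLin G _ g) = fixCount Y g := by
  classical
  let _ := Fintype.ofFinite Y
  have e : actLin G (PermMod Y (TrivMod G ℤ)) g =
      (zPerm G Y).conj (LinearMap.funLeft ℤ ℤ (fun y : Y => g⁻¹ • y)) :=
    LinearMap.ext fun v => rfl
  rw [e, LinearMap.trace_conj', LinearMap.trace_eq_matrix_trace ℤ (Pi.basisFun ℤ Y)]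
  simp only [Matrix.trace, Matrix.diag, LinearMap.toMatrix_apply, Pi.basisFun_apply,
    Pi.basisFun_repr, LinearMap.funLeft_apply, Pi.single_apply, Finset.sum_boole]
  rw [fixCount, Nat.card_eq_fintype_card, Fintype.card_subtype]
  congr 2
  ext y
  simp [eq_inv_smul_iff, eq_comm]

/-- equal fixed-point counts give equal invariants -/
theorem AddInv.perm_eq_of_fixCount [Finite G] (a : AddInv p G) [Finite Y] {Y' : Type} [MulAction G Y']
    [Finite Y'] (h : ∀ g : G, fixCount Y g = fixCount Y' g) : a.perm Y = a.perm Y' := by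
  let _ := Fintype.ofFinite G
  obtain ⟨j, hj, hji⟩ := exists_isogeny_of_trace_eq (G := G)
    (L₁ := PermMod Y (TrivMod G ℤ)) (L₂ := PermMod Y' (TrivMod G ℤ))
    fun g => by rw [trace_zPerm, trace_zPerm, h]
  have key : ∀ (Z : Type) [MulAction G Z] [Finite Z],
      a.perm Z = a.val (PermMod Z (TrivMod G ℤ) ⧸ pSub p (PermMod Z (TrivMod G ℤ))) := by
    intro Z _ _
    let red : PermMod Z (TrivMod G ℤ) →+[G] PermMod Z (TrivMod G (ZMod p)) :=
      { toFun := fun v => ⟨fun z => ⟨((v.val z).val : ZMod p)⟩⟩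
        map_smul' := fun g v => rfl
        map_zero' := PermMod.ext (funext fun z => TrivMod.ext (Int.cast_zero))
        map_add' := fun v w => PermMod.ext (funext fun z => TrivMod.ext (Int.cast_add _ _)) }
    let e : PermMod Z (TrivMod G ℤ) ⧸ pSub p (PermMod Z (TrivMod G ℤ)) →+[G]
        PermMod Z (TrivMod G (ZMod p)) :=
      { toFun := QuotientAddGroup.lift _
          (red : PermMod Z (TrivMod G ℤ) →+ PermMod Z (TrivMod G (ZMod p))) (fun v hv => by
          obtain ⟨w, rfl⟩ := mem_pSub.1 hv
          rw [AddMonoidHom.mem_ker, map_nsmul]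
          exact permMod_nsmul_eq_zero Z _)
        map_smul' := fun g x => by
          induction x using QuotientAddGroup.induction_on with
          | H y => rfl
        map_zero' := map_zero _
        map_add' := map_add _ }
    refine (a.congr e ⟨?_, ?_⟩ (permMod_nsmul_eq_zero Z)).symm
    · refine (injective_iff_map_eq_zero e).2 fun x hx => ?_
      induction x using QuotientAddGroup.induction_on with
      | H v =>
        have hd : ∀ z, ∃ w : ℤ, (v.val z).val = (p : ℤ) * w := fun z =>
          (ZMod.intCast_zmod_eq_zero_iff_dvd _ p).1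
            (congrArg (fun u : PermMod Z (TrivMod G (ZMod p)) => (u.val z).val) hx)
        choose w hw using hd
        refine (QuotientAddGroup.eq_zero_iff _).2 (mem_pSub.2
          ⟨zPerm G Z w, (zPerm G Z).symm.injective (funext fun z => ?_)⟩)
        rw [map_nsmul, LinearEquiv.symm_apply_apply]
        show p • w z = (v.val z).val
        rw [hw, nsmul_eq_mul]
    · intro v
      exact ⟨QuotientAddGroup.mk (zPerm G Z fun z => ((v.val z).val.val : ℤ)),
        PermMod.ext (funext fun z => TrivMod.ext (by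
          show ((((v.val z).val.val : ℕ) : ℤ) : ZMod p) = _
          simp))⟩
  rw [key, key, a.val_mod_eq j hj hji]

/-- additivity on disjoint unions -/
theorem AddInv.perm_add (a : AddInv p G) [Finite Y] {Y₁ Y₂ : Type} [MulAction G Y₁] [MulAction G Y₂]
    (e : Y₁ ⊕ Y₂ ≃ Y) (h₁ : ∀ (g : G) y, e (Sum.inl (g • y)) = g • e (Sum.inl y))
    (h₂ : ∀ (g : G) y, e (Sum.inr (g • y)) = g • e (Sum.inr y)) :
    a.perm Y = a.perm Y₁ + a.perm Y₂ := by
  let F := TrivMod G (ZMod p)
  let i : PermMod Y₁ F →+[G] PermMod Y F :=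
    { toFun := fun v => ⟨fun y => Sum.elim v.val (fun _ => 0) (e.symm y)⟩
      map_smul' := fun g v => PermMod.ext (funext fun y => by
        obtain ⟨z, rfl⟩ := e.surjective y
        rcases z with z | z
        · show Sum.elim (fun x => g • v.val (g⁻¹ • x)) (fun _ => (0 : F)) (e.symm (e (Sum.inl z))) =
            g • Sum.elim v.val (fun _ => (0 : F)) (e.symm (g⁻¹ • e (Sum.inl z)))
          rw [← h₁, e.symm_apply_apply, e.symm_apply_apply]
          rfl
        · show Sum.elim (fun x => g • v.val (g⁻¹ • x)) (fun _ => (0 : F)) (e.symm (e (Sum.inr z))) =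
            g • Sum.elim v.val (fun _ => (0 : F)) (e.symm (g⁻¹ • e (Sum.inr z)))
          rw [← h₂, e.symm_apply_apply, e.symm_apply_apply]
          rfl)
      map_zero' := PermMod.ext (funext fun y => by
        show Sum.elim _ _ (e.symm y) = (0 : F)
        cases e.symm y <;> rfl)
      map_add' := fun v w => PermMod.ext (funext fun y => by
        show Sum.elim (fun x => v.val x + w.val x) _ (e.symm y) =
          Sum.elim v.val (fun _ => (0 : F)) (e.symm y) + Sum.elim w.val (fun _ => (0 : F)) (e.symm y)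
        cases e.symm y <;> simp) }
  let j : PermMod Y F →+[G] PermMod Y₂ F :=
    { toFun := fun v => ⟨fun z => v.val (e (Sum.inr z))⟩
      map_smul' := fun g v => PermMod.ext (funext fun z => by
        show g • v.val (g⁻¹ • e (Sum.inr z)) = g • v.val (e (Sum.inr (g⁻¹ • z)))
        rw [h₂])
      map_zero' := rfl
      map_add' := fun v w => rfl }
  refine a.add i j (permMod_nsmul_eq_zero Y) (fun v w h => PermMod.ext (funext fun z => ?_))
    (fun v => ⟨⟨fun y => Sum.elim (fun _ => 0) v.val (e.symm y)⟩, PermMod.ext (funext fun z => ?_)⟩)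
    fun v => ⟨fun h => ⟨⟨fun z => v.val (e (Sum.inl z))⟩, PermMod.ext (funext fun y => ?_)⟩,
      fun ⟨w, hw⟩ => PermMod.ext (funext fun z => ?_)⟩
  · have := congrArg (fun u : PermMod Y F => u.val (e (Sum.inl z))) h
    change Sum.elim v.val (fun _ => (0 : F)) (e.symm (e (Sum.inl z))) =
      Sum.elim w.val (fun _ => (0 : F)) (e.symm (e (Sum.inl z))) at this
    rw [e.symm_apply_apply] at this
    exact this
  · show Sum.elim (fun _ => (0 : F)) v.val (e.symm (e (Sum.inr z))) = _
    rw [e.symm_apply_apply]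
    rfl
  · obtain ⟨z, rfl⟩ := e.surjective y
    show Sum.elim _ (fun _ => (0 : F)) (e.symm (e z)) = v.val (e z)
    rw [e.symm_apply_apply]
    rcases z with z | z
    · rfl
    · exact (congrArg (fun u : PermMod Y₂ F => u.val z) h).symm
  · rw [← hw]
    show Sum.elim w.val (fun _ => (0 : F)) (e.symm (e (Sum.inr z))) = 0
    rw [e.symm_apply_apply]
    rfl

theorem AddInv.perm_cosetUnion [Finite G] (a : AddInv p G) {n : ℕ} (H : Fin n → Subgroup G) :
    a.perm (cosetUnion H) = ∑ i, a.perm (G ⧸ H i) := by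
  induction n with
  | zero =>
    rw [Fin.sum_univ_zero]
    have : Subsingleton (PermMod (cosetUnion H) (TrivMod G (ZMod p))) :=
      ⟨fun v w => PermMod.ext (funext fun y => y.1.elim0)⟩
    exact a.val_subsingleton
  | succ n ih =>
    let e : (G ⧸ H 0) ⊕ cosetUnion (fun i : Fin n => H i.succ) ≃ cosetUnion H :=
      Equiv.ofBijective (Sum.elim (fun y => ⟨0, y⟩) fun y => ⟨y.1.succ, y.2⟩) ⟨by
        rintro (a | ⟨i, a⟩) (b | ⟨j, b⟩) h
        · exact congrArg Sum.inl (eq_of_heq (Sigma.mk.inj h).2)
        · exact absurd (Sigma.mk.inj h).1 (Fin.succ_ne_zero j).symm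
        · exact absurd (Sigma.mk.inj h).1 (Fin.succ_ne_zero i)
        · obtain rfl := Fin.succ_injective _ (Sigma.mk.inj h).1
          obtain rfl := eq_of_heq (Sigma.mk.inj h).2
          rfl, by
        rintro ⟨i, y⟩
        induction i using Fin.cases with
        | zero => exact ⟨Sum.inl y, rfl⟩
        | succ i => exact ⟨Sum.inr ⟨i, y⟩, rfl⟩⟩
    rw [a.perm_add e (fun g y => rfl) (fun g y => rfl), ih, Fin.sum_univ_succ]

theorem AddInv.perm_top [Finite G] (a : AddInv p G) :
    a.perm (G ⧸ (⊤ : Subgroup G)) = a.val (TrivMod G (ZMod p)) := by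
  have hs : Subsingleton (G ⧸ (⊤ : Subgroup G)) := QuotientGroup.subsingleton_quotient_top
  let e : PermMod (G ⧸ (⊤ : Subgroup G)) (TrivMod G (ZMod p)) →+[G] TrivMod G (ZMod p) :=
    { toFun := fun v => v.val (QuotientGroup.mk 1)
      map_smul' := fun g v => by
        show g • v.val (g⁻¹ • QuotientGroup.mk 1) = g • v.val (QuotientGroup.mk 1)
        rw [Subsingleton.elim (g⁻¹ • (QuotientGroup.mk 1 : G ⧸ (⊤ : Subgroup G))) (QuotientGroup.mk 1)]
      map_zero' := rfl
      map_add' := fun v w => rfl }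
  refine a.congr e ⟨fun v w h => PermMod.ext (funext fun y => ?_), fun x => ⟨⟨fun _ => x⟩, rfl⟩⟩
    fun w => TrivMod.addEquiv.injective (by
      rw [map_nsmul, map_zero]
      exact ZModModule.char_nsmul_eq_zero p _)
  rw [Subsingleton.elim y (QuotientGroup.mk 1)]
  exact h

/-- **Artin induction for additive invariants.** -/
theorem AddInv.val_triv_eq_zero [Finite G] (a : AddInv p G)
    (h : ∀ C : Subgroup G, IsCyclic C → a.perm (G ⧸ C) = 0) :
    a.val (TrivMod G (ZMod p)) = 0 := by
  obtain ⟨n, n', H, H', hH, hH', hfix⟩ := exists_artin_relation G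
  let Hp : Fin (Nat.card G + n') → Subgroup G := Fin.append (fun _ => ⊤) H'
  have h1 : a.perm (cosetUnion Hp) = a.perm (cosetUnion H) := a.perm_eq_of_fixCount fun g => by
    rw [fixCount_cosetUnion, fixCount_cosetUnion, ← hfix g, Fin.sum_univ_add]
    have t1 : ∀ i, fixCount (G ⧸ Hp (Fin.castAdd n' i)) g = 1 := fun i => by
      show fixCount (G ⧸ (Fin.append (fun _ => ⊤) H' (Fin.castAdd n' i))) g = 1
      rw [Fin.append_left, fixCount_top]
    have t2 : ∀ i, fixCount (G ⧸ Hp (Fin.natAdd _ i)) g = fixCount (G ⧸ H' i) g := fun i => by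
      show fixCount (G ⧸ (Fin.append (fun _ => ⊤) H' (Fin.natAdd _ i))) g = _
      rw [Fin.append_right]
    simp only [t1, t2]
    simp
  rw [a.perm_cosetUnion, a.perm_cosetUnion, Finset.sum_eq_zero fun i _ => h _ (hH i),
    Fin.sum_univ_add] at h1
  have t1 : ∀ i, a.perm (G ⧸ Hp (Fin.castAdd n' i)) = a.val (TrivMod G (ZMod p)) := fun i => by
    show a.perm (G ⧸ (Fin.append (fun _ => ⊤) H' (Fin.castAdd n' i))) = _
    rw [Fin.append_left, a.perm_top]
  have t2 : ∀ i, a.perm (G ⧸ Hp (Fin.natAdd _ i)) = 0 := fun i => by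
    show a.perm (G ⧸ (Fin.append (fun _ => ⊤) H' (Fin.natAdd _ i))) = 0
    rw [Fin.append_right]
    exact h _ (hH' i)
  simp only [t1, t2, Finset.sum_const_zero, add_zero, Finset.sum_const, Finset.card_univ,
    Fintype.card_fin, nsmul_eq_mul, mul_eq_zero, Nat.cast_eq_zero] at h1
  exact h1.resolve_left Nat.card_pos.ne'

end Fermat.Agent.ClassField.GW

end
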